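import Fermat.Agent.GalRep.Burnside
import Mathlib.LinearAlgebra.Charpoly.BaseChange
import Mathlib.LinearAlgebra.Charpoly.ToMatrix

/-!
# Transfer of absolute irreducibility and oddness along equality of traces
-/

set_option autoImplicit false

noncomputable section

open Polynomial
open scoped TensorProduct

namespace Fermat.Agent.S58aux

open Fermat.Agent.GalRep

section Basis

variable {k : Type*} [Field k] {V : Type*} [AddCommGroup V] [Module k V]

/-- In a two-dimensional space, a proper nonzero subspace is the line through the first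
vector of a basis. -/
theorem exists_basis_of_line (h2 : Module.finrank k V = 2) {W : Submodule k V} (h0 : W ≠ ⊥)
    (h1 : W ≠ ⊤) : ∃ b : Module.Basis (Fin 2) k V, ∀ x, x ∈ W ↔ b.repr x 1 = 0 := by
  have : FiniteDimensional k V := Module.finite_of_finrank_eq_succ h2
  obtain ⟨v, hvW, hv0⟩ := Submodule.exists_mem_ne_zero_of_ne_bot h0
  have hW1 : Module.finrank k W = 1 := by
    have h3 : Module.finrank k W < 2 := h2 ▸ Submodule.finrank_lt h1.lt_top.ne
    have h4 : 0 < Module.finrank k W := by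
      rw [Module.finrank_pos_iff]
      exact ⟨⟨⟨v, hvW⟩, 0, fun h => hv0 (congrArg Subtype.val h)⟩⟩
    omega
  obtain ⟨w, hw⟩ : ∃ w, w ∉ W := by
    by_contra hcon
    push Not at hcon
    exact h1 ((Submodule.eq_top_iff').mpr hcon)
  have hspan : ∀ x ∈ W, ∃ c : k, x = c • v := by
    intro x hx
    obtain ⟨c, hc⟩ := (finrank_eq_one_iff_of_nonzero' (⟨v, hvW⟩ : W)
      (fun h => hv0 (congrArg Subtype.val h))).mp hW1 ⟨x, hx⟩
    exact ⟨c, (congrArg Subtype.val hc).symm⟩
  have hli : LinearIndependent k ![v, w] := by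
    rw [LinearIndependent.pair_iff]
    intro s t hst
    have ht : t = 0 := by
      by_contra ht
      apply hw
      have : w = (-(t⁻¹ * s)) • v := by
        have h5 : t • w = -(s • v) := by
          rw [eq_neg_iff_add_eq_zero, add_comm]; exact hst
        calc w = t⁻¹ • (t • w) := by rw [smul_smul, inv_mul_cancel₀ ht, one_smul]
          _ = _ := by rw [h5, smul_neg, smul_smul, neg_smul]
      rw [this]
      exact W.smul_mem _ hvW
    subst ht
    rw [zero_smul, add_zero] at hst
    exact ⟨(smul_eq_zero.mp hst).resolve_right hv0, rfl⟩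
  let b : Module.Basis (Fin 2) k V :=
    basisOfLinearIndependentOfCardEqFinrank hli (by rw [h2]; rfl)
  have hb0 : b 0 = v := by simp [b]
  have hb1 : b 1 = w := by simp [b]
  refine ⟨b, fun x => ⟨fun hx => ?_, fun hx => ?_⟩⟩
  · obtain ⟨c, rfl⟩ := hspan x hx
    rw [← hb0, map_smul, Module.Basis.repr_self]
    simp
  · have h6 := b.sum_repr x
    rw [Fin.sum_univ_two, hx, zero_smul, add_zero, hb0] at h6
    rw [← h6]
    exact W.smul_mem _ hvW

end Basis

/-- The residual version of Burnside's theorem. -/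
theorem span_range_eq_top_residual {k : Type} [Field k] (ρ : ResidualGaloisRep k)
    (h : ρ.IsAbsolutelyIrreducible) : Submodule.span k (Set.range ρ.ρ) = ⊤ := by
  have hfr : Module.finrank (AlgebraicClosure k) (ρ.baseChange (AlgebraicClosure k)).V = 2 :=
    (ρ.baseChange (AlgebraicClosure k)).finrank_eq
  have hnt : Nontrivial (ρ.baseChange (AlgebraicClosure k)).V :=
    Module.nontrivial_of_finrank_pos (R := AlgebraicClosure k) (by rw [hfr]; norm_num)
  have h1 := span_range_eq_top_of_irreducible (ρ.baseChange (AlgebraicClosure k)).ρ h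
  refine span_eq_top_of_baseChange (k' := AlgebraicClosure k) _ ?_
  rw [← h1]
  congr 1
  ext f
  constructor
  · rintro ⟨_, ⟨g, rfl⟩, rfl⟩
    exact ⟨g, rfl⟩
  · rintro ⟨g, rfl⟩
    exact ⟨_, ⟨g, rfl⟩, rfl⟩

/-- For an absolutely irreducible representation there are four elements with nondegenerate
Gram matrix for the trace form. -/
theorem exists_gram_ne_zero {k : Type} [Field k] (ρ : ResidualGaloisRep k)
    (h : ρ.IsAbsolutelyIrreducible) :
    ∃ g : Fin 4 → (AlgebraicClosure ℚ ≃ₐ[ℚ] AlgebraicClosure ℚ),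
      (Matrix.of fun i j => LinearMap.trace k ρ.V (ρ.ρ (g i * g j))).det ≠ 0 := by
  classical
  have hspan := span_range_eq_top_residual ρ h
  obtain ⟨b, hbs, hbspan, hbli⟩ := exists_linearIndependent k (Set.range ρ.ρ)
  rw [hspan] at hbspan
  have hfin : Finite b := hbli.finite
  have := Fintype.ofFinite b
  have hfr : Module.finrank k (Module.End k ρ.V) = 4 := by
    rw [Module.finrank_linearMap, ρ.finrank_eq]
  let B := Module.Basis.mk hbli (by rw [Subtype.range_coe, hbspan])
  have hcard : Fintype.card b = 4 := by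
    rw [← hfr]
    exact (Module.finrank_eq_card_basis B).symm
  let e : Fin 4 ≃ b := (Fintype.equivFinOfCardEq hcard).symm
  choose g hg using fun x : b => hbs x.2
  refine ⟨fun i => g (e i), fun hdet => ?_⟩
  obtain ⟨c, hc0, hc⟩ := Matrix.exists_mulVec_eq_zero_iff.mpr hdet
  have hBe : ∀ i : Fin 4, B (e i) = ρ.ρ (g (e i)) := by
    intro i
    rw [hg]
    simp [B]
  have h1 : ∀ i, LinearMap.trace k ρ.V (ρ.ρ (g (e i)) * ∑ j, c j • ρ.ρ (g (e j))) = 0 := by
    intro i
    have h2 := congrFun hc i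
    rw [Matrix.mulVec, dotProduct] at h2
    simp only [Matrix.of_apply, Pi.zero_apply] at h2
    rw [Finset.mul_sum, map_sum, ← h2]
    refine Finset.sum_congr rfl fun j _ => ?_
    rw [mul_smul_comm, map_smul, ← map_mul, smul_eq_mul, mul_comm]
  have h3 : ∑ j, c j • ρ.ρ (g (e j)) = 0 := by
    refine eq_zero_of_trace_mul_eq_zero _ fun X => ?_
    have hX : X ∈ Submodule.span k (Set.range (fun i : Fin 4 => ρ.ρ (g (e i)))) := by
      have h4 : Set.range (fun i : Fin 4 => ρ.ρ (g (e i))) = b := by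
        ext x
        constructor
        · rintro ⟨i, rfl⟩
          show ρ.ρ (g (e i)) ∈ b
          rw [hg]
          exact (e i).2
        · intro hx
          exact ⟨e.symm ⟨x, hx⟩, by show ρ.ρ (g (e _)) = x; rw [hg, Equiv.apply_symm_apply]⟩
      rw [h4, hbspan]
      trivial
    induction hX using Submodule.span_induction with
    | mem x hx =>
      obtain ⟨i, rfl⟩ := hx
      exact h1 i
    | zero => rw [zero_mul, map_zero]
    | add x y _ _ hx hy => rw [add_mul, map_add, hx, hy, add_zero]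
    | smul c x _ hx => rw [smul_mul_assoc, map_smul, hx, smul_zero]
  apply hc0
  have h5 : ∑ j, c j • B (e j) = 0 := by
    rw [← h3]
    exact Finset.sum_congr rfl fun j _ => by rw [hBe]
  have h6 : LinearIndependent k (fun j : Fin 4 => B (e j)) :=
    B.linearIndependent.comp e e.injective
  funext j
  exact Fintype.linearIndependent_iff.mp h6 c h5 j

/-- **Absolute irreducibility only depends on traces** (two-dimensional case). -/
theorem isAbsolutelyIrreducible_of_trace {K₁ K₂ : Type} [Field K₁] [Field K₂] (j : K₁ →+* K₂)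
    (ρ₁ : ResidualGaloisRep K₁) (ρ₂ : ResidualGaloisRep K₂) (h₁ : ρ₁.IsAbsolutelyIrreducible)
    (htr : ∀ σ, LinearMap.trace K₂ ρ₂.V (ρ₂.ρ σ) = j (LinearMap.trace K₁ ρ₁.V (ρ₁.ρ σ))) :
    ρ₂.IsAbsolutelyIrreducible := by
  classical
  intro W hW
  by_contra hcon
  push Not at hcon
  obtain ⟨h0, h1⟩ := hcon
  set K := AlgebraicClosure K₂ with hK
  set ρ := ρ₂.baseChange K with hρ
  obtain ⟨b, hb⟩ := exists_basis_of_line ρ.finrank_eq h0 h1
  set M : (AlgebraicClosure ℚ ≃ₐ[ℚ] AlgebraicClosure ℚ) → Matrix (Fin 2) (Fin 2) K :=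
    fun σ => LinearMap.toMatrix b b (ρ.ρ σ) with hM
  have hM10 : ∀ σ, M σ 1 0 = 0 := by
    intro σ
    rw [hM]
    simp only [LinearMap.toMatrix_apply]
    exact (hb _).mp (hW σ _ ((hb _).mpr (by simp)))
  have hMmul : ∀ σ τ, M (σ * τ) = M σ * M τ := by
    intro σ τ
    simp only [hM]
    rw [map_mul, LinearMap.toMatrix_mul]
  have hM0 : ∀ σ τ, M (σ * τ) 0 0 = M σ 0 0 * M τ 0 0 := by
    intro σ τ
    rw [hMmul, Matrix.mul_apply, Fin.sum_univ_two, hM10 τ, mul_zero, add_zero]
  have hM1 : ∀ σ τ, M (σ * τ) 1 1 = M σ 1 1 * M τ 1 1 := by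
    intro σ τ
    rw [hMmul, Matrix.mul_apply, Fin.sum_univ_two, hM10 σ, zero_mul, zero_add]
  have htrM : ∀ σ, algebraMap K₂ K (j (LinearMap.trace K₁ ρ₁.V (ρ₁.ρ σ))) =
      M σ 0 0 + M σ 1 1 := by
    intro σ
    rw [← htr, ← Matrix.trace_fin_two]
    have h3 := LinearMap.trace_baseChange (ρ₂.ρ σ) K
    rw [← h3]
    exact LinearMap.trace_eq_matrix_trace K b (ρ.ρ σ)
  obtain ⟨g, hg⟩ := exists_gram_ne_zero ρ₁ h₁
  -- the Gram matrix over `K`
  set G : Matrix (Fin 4) (Fin 4) K :=
    Matrix.of fun i i' => M (g i) 0 0 * M (g i') 0 0 + M (g i) 1 1 * M (g i') 1 1 with hG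
  have hGdet : G.det ≠ 0 := by
    have h4 : G = ((algebraMap K₂ K).comp j).mapMatrix
        (Matrix.of fun i i' => LinearMap.trace K₁ ρ₁.V (ρ₁.ρ (g i * g i'))) := by
      ext i i'
      simp only [hG, Matrix.of_apply, RingHom.mapMatrix_apply, Matrix.map_apply,
        RingHom.comp_apply]
      rw [htrM, hM0, hM1]
    rw [h4, ← RingHom.map_det]
    exact fun h5 => hg ((map_eq_zero _).mp h5)
  -- a nonzero vector killed by the two characters
  let L : (Fin 4 → K) →ₗ[K] (Fin 2 → K) :=
    Matrix.mulVecLin (Matrix.of ![fun i => M (g i) 0 0, fun i => M (g i) 1 1])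
  have hker : LinearMap.ker L ≠ ⊥ := LinearMap.ker_ne_bot_of_finrank_lt (by simp)
  obtain ⟨c, hcL, hc0⟩ := Submodule.exists_mem_ne_zero_of_ne_bot hker
  have hL0 : ∑ i, M (g i) 0 0 * c i = 0 := by
    have := congrFun (LinearMap.mem_ker.mp hcL) 0
    simpa [L, Matrix.mulVec, dotProduct] using this
  have hL1 : ∑ i, M (g i) 1 1 * c i = 0 := by
    have := congrFun (LinearMap.mem_ker.mp hcL) 1
    simpa [L, Matrix.mulVec, dotProduct] using this
  apply hGdet
  refine Matrix.exists_mulVec_eq_zero_iff.mp ⟨c, hc0, ?_⟩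
  funext i
  rw [Matrix.mulVec, dotProduct, Pi.zero_apply]
  simp only [hG, Matrix.of_apply]
  have h7 : ∀ x, (M (g i) 0 0 * M (g x) 0 0 + M (g i) 1 1 * M (g x) 1 1) * c x =
      M (g i) 0 0 * (M (g x) 0 0 * c x) + M (g i) 1 1 * (M (g x) 1 1 * c x) := fun x => by ring
  simp only [h7]
  rw [Finset.sum_add_distrib, ← Finset.mul_sum, ← Finset.mul_sum, hL0, hL1, mul_zero, mul_zero,
    add_zero]

end Fermat.Agent.S58aux

end
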