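import Fermat.Prelude.Def_CuspForm_HeckeGaloisRepDatum
import Fermat.Prelude.Def_CuspForm_Newforms
import Fermat.Prelude.Def_GaloisRep_LocalConditions
import Fermat.Agent.EC.TateDet
import Fermat.Agent.S29.Lift
import Fermat.Agent.S29.Character
import Fermat.Agent.S29.BaseChange
import Fermat.Agent.S22
import Fermat.Agent.S58.Transfer

/-!
# Comparison of the representation of a newform with the Tate module of an elliptic curve
-/

set_option autoImplicit false

noncomputable section

open Polynomial IsLocalRing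
open scoped TensorProduct WeierstrassCurve.Affine

namespace Fermat.Agent.S58aux

/-! ### The structure map from the `p`-adic integers -/

/-- A complete local ring in which `p` is topologically nilpotent receives the `p`-adic
integers. -/
theorem exists_padicInt_hom (p : ℕ) [Fact p.Prime] (O : Type) [CommRing O] [IsLocalRing O]
    [IsAdicComplete (maximalIdeal O) O] (hp : (p : O) ∈ maximalIdeal O) :
    ∃ φ : ℤ_[p] →+* O, IsLocalHom φ := by
  classical
  set I := maximalIdeal O with hI
  have hp0 : ∀ n : ℕ, ((p ^ n : ℕ) : O ⧸ I ^ n) = 0 := by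
    intro n
    rw [← map_natCast (Ideal.Quotient.mk (I ^ n)), Ideal.Quotient.eq_zero_iff_mem, Nat.cast_pow]
    exact Ideal.pow_mem_pow hp n
  have key : ∀ n : ℕ, Nonempty (ZMod (p ^ n) →+* O ⧸ I ^ n) := by
    intro n
    have hd : ringChar (O ⧸ I ^ n) ∣ p ^ n := (ringChar.spec _ _).mp (hp0 n)
    exact ⟨ZMod.castHom hd (O ⧸ I ^ n)⟩
  let c : ∀ n : ℕ, ZMod (p ^ n) →+* O ⧸ I ^ n := fun n => (key n).some
  let f : ∀ n : ℕ, ℤ_[p] →+* O ⧸ I ^ n := fun n => (c n).comp (PadicInt.toZModPow n)
  have hf : ∀ {m n : ℕ} (hle : m ≤ n), (Ideal.Quotient.factorPow I hle).comp (f n) = f m := by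
    intro m n hle
    have h1 : PadicInt.toZModPow (p := p) m =
        (ZMod.castHom (pow_dvd_pow p hle) (ZMod (p ^ m))).comp (PadicInt.toZModPow n) :=
      (PadicInt.zmod_cast_comp_toZModPow m n hle).symm
    show ((Ideal.Quotient.factorPow I hle).comp ((c n).comp (PadicInt.toZModPow n))) =
      (c m).comp (PadicInt.toZModPow m)
    rw [h1, ← RingHom.comp_assoc, ← RingHom.comp_assoc]
    congr 1
    exact Subsingleton.elim _ _
  refine ⟨IsAdicComplete.liftRingHom I f hf, ⟨fun a ha => ?_⟩⟩
  by_contra hcon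
  have h2 : a ∈ maximalIdeal ℤ_[p] := (mem_maximalIdeal a).mpr hcon
  rw [PadicInt.maximalIdeal_eq_span_p, Ideal.mem_span_singleton] at h2
  obtain ⟨b, rfl⟩ := h2
  rw [map_mul, map_natCast] at ha
  have h3 : IsUnit (p : O) := isUnit_of_mul_isUnit_left ha
  exact (mem_maximalIdeal _).mp hp h3

theorem charpoly_baseChangeAlong {A B : Type} [CommRing A] [IsLocalRing A] [CommRing B]
    [IsLocalRing B] (φ : A →+* B) (hφ : IsLocalHom φ) (ρ : GaloisRepAdic A)
    (σ : AlgebraicClosure ℚ ≃ₐ[ℚ] AlgebraicClosure ℚ) :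
    LinearMap.charpoly ((ρ.baseChangeAlong φ hφ).ρ σ) = (LinearMap.charpoly (ρ.ρ σ)).map φ := by
  letI : Algebra A B := φ.toAlgebra
  show LinearMap.charpoly ((ρ.ρ σ).baseChange B) = _
  rw [LinearMap.charpoly_baseChange]
  rfl

/-! ### Coefficient rings receiving the eigenvalues of a form -/

section Coeff

variable {T : Type} [CommRing T] [Module.Finite ℤ T] (χ : T →+* ℂ)

open Fermat.Agent.S29aux in
/-- The range of a character of a finite `ℤ`-algebra, inside a ring of integers. -/
def rangeInt : χ.range →+* NumberField.RingOfIntegers (heckeField χ) :=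
  (χ.range.subtype.codRestrict (heckeField χ).toSubfield
    (fun t => IntermediateField.subset_adjoin ℚ _ t.2) : χ.range →+* heckeField χ).codRestrict
    (integralClosure ℤ (heckeField χ)) (fun t => by
      have h : IsIntegral ℤ ((algebraMap (heckeField χ) ℂ)
          ((χ.range.subtype.codRestrict (heckeField χ).toSubfield
    (fun t => IntermediateField.subset_adjoin ℚ _ t.2) : χ.range →+* heckeField χ) t)) := by
        obtain ⟨s, hs⟩ := t.2
        have h1 := isIntegral_apply χ s
        rw [hs] at h1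
        exact h1
      exact (isIntegral_algebraMap_iff (algebraMap (heckeField χ) ℂ).injective).mp h)

/-- For every prime there is a complete discrete valuation ring receiving the values of `χ`. -/
theorem exists_coeffRing {p : ℕ} (hp : p.Prime) :
    ∃ (O : Type) (_ : CommRing O) (_ : IsDomain O) (_ : IsDiscreteValuationRing O)
      (_ : IsAdicComplete (maximalIdeal O) O) (_ : Finite (ResidueField O)) (_ : CharZero O),
      (p : O) ∈ maximalIdeal O ∧ Nonempty (χ.range →+* O) := by
  haveI := Fermat.Agent.S29aux.heckeField_numberField χ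
  -- a residue map of the ring of integers in characteristic `p`
  obtain ⟨𝔪, hmax, hmem⟩ : ∃ 𝔪 : Ideal (NumberField.RingOfIntegers (S29aux.heckeField χ)),
      𝔪.IsMaximal ∧ (p : NumberField.RingOfIntegers (S29aux.heckeField χ)) ∈ 𝔪 := by
    have hne : Ideal.span {(p : NumberField.RingOfIntegers (S29aux.heckeField χ))} ≠ ⊤ := by
      intro h
      rw [Ideal.span_singleton_eq_top] at h
      have h1 : IsUnit (p : integralClosure ℤ ℂ) := by
        have := h.map (S29aux.intEmb (S29aux.heckeField χ))
        rwa [map_natCast] at this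
      exact FLTPrelim.not_isUnit_natCast_integralClosure hp h1
    obtain ⟨𝔪, h1, h2⟩ := Ideal.exists_le_maximal _ hne
    exact ⟨𝔪, h1, h2 (Ideal.subset_span rfl)⟩
  letI : Field (NumberField.RingOfIntegers (S29aux.heckeField χ) ⧸ 𝔪) := Ideal.Quotient.field 𝔪
  haveI : CharP (NumberField.RingOfIntegers (S29aux.heckeField χ) ⧸ 𝔪) p := by
    have h1 : ((p : ℕ) : NumberField.RingOfIntegers (S29aux.heckeField χ) ⧸ 𝔪) = 0 := by
      rw [← map_natCast (Ideal.Quotient.mk 𝔪), Ideal.Quotient.eq_zero_iff_mem]
      exact hmem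
    exact ECRed.charP_of_prime_natCast hp h1
  obtain ⟨O, i1, i2, i3, i4, i5, i6, j, -, hpO, -⟩ := S29aux.exists_completeDVR
    (S29aux.heckeField χ) hp (Ideal.Quotient.mk 𝔪)
  exact ⟨O, i1, i2, i3, i4, i5, i6, hpO, ⟨j.comp (rangeInt χ)⟩⟩

end Coeff

end Fermat.Agent.S58aux

end
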