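import Fermat.Prelude.Def_WeierstrassCurve_ConductorLevel
import Fermat.Prelude.Def_FLTPrelim_ModularRep
import Fermat.Agent.Oldforms.Basic
import Fermat.Agent.Frob.Exists
import Fermat.Agent.S58.Compare

/-!
# S58 from S35, S36 and the local behaviour of the Tate modules
-/

set_option autoImplicit false
set_option linter.style.haveILetI false
set_option linter.unusedVariables false

noncomputable section

open Polynomial IsLocalRing ModularFormClass
open scoped TensorProduct WeierstrassCurve.Affine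

namespace Fermat.Agent.S58aux

open Fermat.Agent.S29aux Fermat.Agent.Tate

/-- The frozen statement S35 as a proposition. -/
def Stmt35 : Prop :=
  ∀ {M : ℕ} [NeZero M] {g : CuspForm (CongruenceSubgroup.Gamma0 M) 2} (_hg : g.IsNewform)
    (lam : ℕ) [Fact lam.Prime]
    (S : Finset ℕ)
    (O' : Type) [CommRing O'] [IsDomain O'] [IsDiscreteValuationRing O']
    [IsAdicComplete (IsLocalRing.maximalIdeal O') O'] [Finite (IsLocalRing.ResidueField O')]
    [CharZero O'] (_hlamO' : (lam : O') ∈ IsLocalRing.maximalIdeal O')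
    (chig : CuspForm.heckeAlgebra M 2 (↑S : Set ℕ) →+* ℂ)
    (_hchig : ∀ (ℓ : ℕ) (hℓ : ℓ.Prime) (hℓM : ¬ ℓ ∣ M) (hℓS : ℓ ∉ (↑S : Set ℕ)),
      chig (CuspForm.heckeAlgebra.T hℓ hℓM hℓS) = ModularFormClass.qCoeff g ℓ)
    (iota : chig.range →+* O')
    (_hlamS : lam ∈ S) (_hMS : ∀ q : ℕ, q.Prime → q ∣ M → q ∈ S),
    ∃ (O'' : Type) (_ : CommRing O'') (_ : IsDomain O'') (_ : IsDiscreteValuationRing O'')
      (_ : IsAdicComplete (IsLocalRing.maximalIdeal O'') O'') (_ : Finite (IsLocalRing.ResidueField O''))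
      (_ : CharZero O'') (_ : Algebra O' O'') (_ : Module.Finite O' O'') (_ : IsLocalHom (algebraMap O' O'')),
      Function.Injective (algebraMap O' O'') ∧
      ∃ ρ : GaloisRepAdic O'',
        (∀ (ℓ : ℕ) (hℓ : ℓ.Prime) (hℓM : ¬ ℓ ∣ M) (hℓS : ℓ ∉ (↑S : Set ℕ)),
          ∀ A : ValuationSubring (AlgebraicClosure ℚ), A.LiesOverPrime ℓ →
            ∀ σ : AlgebraicClosure ℚ ≃ₐ[ℚ] AlgebraicClosure ℚ, A.IsFrobeniusAt σ ℓ →
              LinearMap.charpoly (ρ.ρ σ) =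
                X ^ 2 - C (algebraMap O' O'' ((iota.comp chig.rangeRestrict) (CuspForm.heckeAlgebra.T hℓ hℓM hℓS))) * X
                  + C ((ℓ : O''))) ∧
        (∀ q : ℕ, q.Prime → q ≠ lam → q ∣ M → ¬ q ^ 2 ∣ M →
          ∀ A : ValuationSubring (AlgebraicClosure ℚ), A.LiesOverPrime q →
            ∀ σ : AlgebraicClosure ℚ ≃ₐ[ℚ] AlgebraicClosure ℚ, A.IsFrobeniusAt σ q →
              LinearMap.charpoly (ρ.ρ σ) = X ^ 2 - C ((q : O'') + 1) * X + C ((q : O'')) ∨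
              LinearMap.charpoly (ρ.ρ σ) = X ^ 2 + C ((q : O'') + 1) * X + C ((q : O'')))

/-- The frozen statement S36 as a proposition. -/
def Stmt36 : Prop :=
  ∀ {M : ℕ} [NeZero M] {g : CuspForm (CongruenceSubgroup.Gamma0 M) 2} (_hg : g.IsNewform)
    (lam : ℕ) [Fact lam.Prime]
    (S : Finset ℕ)
    (O' : Type) [CommRing O'] [IsDomain O'] [IsDiscreteValuationRing O']
    [IsAdicComplete (IsLocalRing.maximalIdeal O') O'] [Finite (IsLocalRing.ResidueField O')]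
    [CharZero O'] (_hlamO' : (lam : O') ∈ IsLocalRing.maximalIdeal O')
    (_hlam2 : lam ≠ 2)
    (chig : CuspForm.heckeAlgebra M 2 (↑S : Set ℕ) →+* ℂ)
    (_hchig : ∀ (ℓ : ℕ) (hℓ : ℓ.Prime) (hℓM : ¬ ℓ ∣ M) (hℓS : ℓ ∉ (↑S : Set ℕ)),
      chig (CuspForm.heckeAlgebra.T hℓ hℓM hℓS) = ModularFormClass.qCoeff g ℓ)
    (iota : chig.range →+* O')
    (_hlamS : lam ∈ S) (_hMS : ∀ q : ℕ, q.Prime → q ∣ M → q ∈ S)
    (_hres : ∀ (O'' : Type) [CommRing O''] [IsDomain O''] [IsDiscreteValuationRing O'']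
      [IsAdicComplete (IsLocalRing.maximalIdeal O'') O''] [Finite (IsLocalRing.ResidueField O'')] [CharZero O'']
      [Algebra O' O''] [Module.Finite O' O''] [IsLocalHom (algebraMap O' O'')],
      Function.Injective (algebraMap O' O'') → ∀ (ρ : GaloisRepAdic O''),
      (∀ (ℓ : ℕ) (hℓ : ℓ.Prime) (hℓlam : ℓ ≠ lam) (hℓM : ¬ ℓ ∣ M) (hℓS : ℓ ∉ (↑S : Set ℕ)),
        ∀ A : ValuationSubring (AlgebraicClosure ℚ), A.LiesOverPrime ℓ →
          ∀ σ : AlgebraicClosure ℚ ≃ₐ[ℚ] AlgebraicClosure ℚ, A.IsFrobeniusAt σ ℓ →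
            LinearMap.charpoly (ρ.ρ σ) =
              X ^ 2 - C (algebraMap O' O'' ((iota.comp chig.rangeRestrict) (CuspForm.heckeAlgebra.T hℓ hℓM hℓS))) * X
                + C ((ℓ : O'')))
      → ρ.residual.IsAbsolutelyIrreducible ∧ ρ.residual.IsOdd),
    ∃ (O'' : Type) (_ : CommRing O'') (_ : IsDomain O'') (_ : IsDiscreteValuationRing O'')
      (_ : IsAdicComplete (IsLocalRing.maximalIdeal O'') O'') (_ : Finite (IsLocalRing.ResidueField O''))
      (_ : CharZero O'') (_ : Algebra O' O'') (_ : Module.Finite O' O'') (_ : IsLocalHom (algebraMap O' O'')),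
      Function.Injective (algebraMap O' O'') ∧
      ∃ ρ : GaloisRepAdic O'',
        (∀ (ℓ : ℕ) (hℓ : ℓ.Prime) (hℓM : ¬ ℓ ∣ M) (hℓS : ℓ ∉ (↑S : Set ℕ)),
          ∀ A : ValuationSubring (AlgebraicClosure ℚ), A.LiesOverPrime ℓ →
            ∀ σ : AlgebraicClosure ℚ ≃ₐ[ℚ] AlgebraicClosure ℚ, A.IsFrobeniusAt σ ℓ →
              LinearMap.charpoly (ρ.ρ σ) =
                X ^ 2 - C (algebraMap O' O'' ((iota.comp chig.rangeRestrict) (CuspForm.heckeAlgebra.T hℓ hℓM hℓS))) * X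
                  + C ((ℓ : O''))) ∧
        (∀ q : ℕ, q.Prime → q ≠ lam → M.factorization q = 2 → ¬ ρ.IsUnipotentOnInertiaAt q)

/-! ### The trivial bound for the number of points -/

theorem card_bounds (q : ℕ) [hq : Fact q.Prime] (W : WeierstrassCurve (ZMod q)) :
    1 ≤ W.card ∧ W.card ≤ 2 * q + 1 := by
  classical
  have hfin : Finite W.toAffine.Point := WeierstrassCurve.Affine.Point.instFinite
  refine ⟨?_, ?_⟩
  · have : Nonempty W.toAffine.Point := ⟨0⟩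
    exact Nat.card_pos
  · -- choose a point over every `x`
    let y₀ : ZMod q → ZMod q := fun x =>
      if h : ∃ y, W.toAffine.Equation x y then h.choose else 0
    have hy₀ : ∀ x y, W.toAffine.Equation x y → W.toAffine.Equation x (y₀ x) := by
      intro x y h
      have hex : ∃ y, W.toAffine.Equation x y := ⟨y, h⟩
      show W.toAffine.Equation x (if h : ∃ y, W.toAffine.Equation x y then h.choose else 0)
      rw [dif_pos hex]
      exact hex.choose_spec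
    let F : W.toAffine.Point → Option (ZMod q × Bool) := fun P =>
      match P with
      | .zero => none
      | .some x y _ => Option.some (x, decide (y = y₀ x))
    have hF : Function.Injective F := by
      rintro (_ | ⟨x₁, y₁, h₁⟩) (_ | ⟨x₂, y₂, h₂⟩) h
      · rfl
      · simp [F] at h
      · simp [F] at h
      · simp only [F, Option.some.injEq, Prod.mk.injEq] at h
        obtain ⟨rfl, h⟩ := h
        have key : y₁ = y₂ := by
          by_cases h3 : y₁ = y₀ x₁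
          · have h4 : y₂ = y₀ x₁ := by
              rw [decide_eq_true h3] at h
              exact of_decide_eq_true h.symm
            rw [h3, h4]
          · have h4 : y₂ ≠ y₀ x₁ := by
              rw [decide_eq_false h3] at h
              exact of_decide_eq_false h.symm
            have h5 := hy₀ x₁ y₁ h₁.1
            have e1 := (WeierstrassCurve.Affine.Y_eq_of_X_eq h₁.1 h5 rfl).resolve_left h3
            have e2 := (WeierstrassCurve.Affine.Y_eq_of_X_eq h₂.1 h5 rfl).resolve_left h4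
            rw [e1, e2]
        subst key
        rfl
    have h1 := Nat.card_le_card_of_injective F hF
    refine h1.trans (le_of_eq ?_)
    rw [Nat.card_eq_fintype_card, Fintype.card_option, Fintype.card_prod, ZMod.card,
      Fintype.card_bool, mul_comm]

theorem apOfModel_ne (W : WeierstrassCurve ℤ) {q : ℕ} (hq : q.Prime) :
    W.apOfModel q ≠ (q : ℤ) + 1 ∧ W.apOfModel q ≠ -((q : ℤ) + 1) := by
  have : Fact q.Prime := ⟨hq⟩
  obtain ⟨h1, h2⟩ := card_bounds q (W.reductionMod q)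
  rw [WeierstrassCurve.apOfModel, WeierstrassCurve.traceOfFrobenius, Nat.card_zmod]
  constructor <;> omega

/-! ### Comparison with the Tate module -/

section Main

variable {W : WeierstrassCurve ℤ} (hΔ : W.Δ ≠ 0)

/-- If the Frobenius polynomials of `ρ` are those of `W` outside a finite set of primes, then all
characteristic polynomials of `ρ` are those of the Tate module. -/
theorem charpoly_eq_tate (p : ℕ) [Fact p.Prime] {O : Type} [CommRing O] [IsLocalRing O]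
    [IsHausdorff (maximalIdeal O) O] (φ : ℤ_[p] →+* O) (hφ : IsLocalHom φ) (ρ : GaloisRepAdic O)
    (S : Set ℕ) (hS : S.Finite)
    (h : ∀ ℓ : ℕ, ℓ.Prime → ℓ ∉ S → W.IsGoodPrimeFor ℓ → ℓ ≠ p →
      ∀ A : ValuationSubring (AlgebraicClosure ℚ), A.LiesOverPrime ℓ →
      ∀ σ : AlgebraicClosure ℚ ≃ₐ[ℚ] AlgebraicClosure ℚ, A.IsFrobeniusAt σ ℓ →
        LinearMap.charpoly (ρ.ρ σ) = X ^ 2 - C ((W.apOfModel ℓ : ℤ) : O) * X + C (ℓ : O))
    (σ : AlgebraicClosure ℚ ≃ₐ[ℚ] AlgebraicClosure ℚ) :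
    LinearMap.charpoly (ρ.ρ σ) =
      (LinearMap.charpoly ((tateRep _ (map_Δ_ne_zero hΔ) p).ρ σ)).map φ := by
  rw [← charpoly_baseChangeAlong φ hφ]
  refine Fermat.Agent.FrobDensity.galoisRepAdic_charpoly_eq ρ _
    (S ∪ ({ℓ : ℕ | ¬ W.IsGoodPrimeFor ℓ} ∪ {p}))
    (hS.union ((finite_badPrimes hΔ).union (Set.finite_singleton p))) ?_ σ
  intro ℓ hℓ hℓS A hA τ hτ
  have h1 : ℓ ∉ S := fun h => hℓS (Or.inl h)
  have h2 : W.IsGoodPrimeFor ℓ := by
    by_contra h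
    exact hℓS (Or.inr (Or.inl h))
  have h3 : ℓ ≠ p := fun h => hℓS (Or.inr (Or.inr h))
  have : Fact ℓ.Prime := ⟨hℓ⟩
  rw [charpoly_baseChangeAlong, h ℓ hℓ h1 h2 h3 A hA τ hτ,
    charpoly_tateRep_frobenius p (map_Δ_ne_zero hΔ) h2 (Ne.symm h3) hA hτ]
  simp

/-- comparison of quadratic polynomials -/
theorem coeff_one_quadratic {R : Type*} [CommRing R] (a b : R) :
    (X ^ 2 - C a * X + C b : R[X]).coeff 1 = -a := by
  simp [coeff_C]

section Newform

variable {M : ℕ} [NeZero M] {g : CuspForm (CongruenceSubgroup.Gamma0 M) 2} (hg : g.IsNewform)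
  (S₀ : Set ℕ) (hS₀ : S₀.Finite)
  (hgW : ∀ ℓ : ℕ, ℓ.Prime → ℓ ∉ S₀ → W.IsGoodPrimeFor ℓ →
    qCoeff ⇑g ℓ = ((W.apOfModel ℓ : ℤ) : ℂ))

/-- the exceptional set used for the newform `g` and the prime `p`. -/
def excSet (M p : ℕ) : Finset ℕ := insert p M.primeFactors

theorem mem_excSet_self (M p : ℕ) : p ∈ excSet M p := Finset.mem_insert_self _ _

theorem mem_excSet_of_dvd (M p : ℕ) [NeZero M] (q : ℕ) (hq : q.Prime) (hqM : q ∣ M) :
    q ∈ excSet M p :=
  Finset.mem_insert_of_mem (Nat.mem_primeFactors.mpr ⟨hq, hqM, NeZero.ne M⟩)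

theorem not_mem_excSet {M p ℓ : ℕ} (hp : ℓ ≠ p) (hM : ¬ ℓ ∣ M) :
    ℓ ∉ ((excSet M p : Finset ℕ) : Set ℕ) := by
  intro h
  rcases Finset.mem_insert.mp (Finset.mem_coe.mp h) with h | h
  · exact hp h
  · exact hM (Nat.dvd_of_mem_primeFactors h)

include hgW in
/-- the Frobenius polynomials of a representation attached to `g` are those of `W`. -/
theorem frob_eq_of_attached (p : ℕ) {O' O'' : Type} [CommRing O'] [CommRing O'']
    [Algebra O' O''] [IsLocalRing O'']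
    (iota : (eigenChar hg.1 ((excSet M p : Finset ℕ) : Set ℕ)).range →+* O')
    (ρ : GaloisRepAdic O'')
    (hρ : ∀ (ℓ : ℕ) (hℓ : ℓ.Prime) (_ : ℓ ≠ p) (hℓM : ¬ ℓ ∣ M)
      (hℓS : ℓ ∉ ((excSet M p : Finset ℕ) : Set ℕ)),
          ∀ A : ValuationSubring (AlgebraicClosure ℚ), A.LiesOverPrime ℓ →
            ∀ σ : AlgebraicClosure ℚ ≃ₐ[ℚ] AlgebraicClosure ℚ, A.IsFrobeniusAt σ ℓ →
              LinearMap.charpoly (ρ.ρ σ) =
                X ^ 2 - C (algebraMap O' O''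
                  ((iota.comp (eigenChar hg.1 ((excSet M p : Finset ℕ) : Set ℕ)).rangeRestrict)
                    (CuspForm.heckeAlgebra.T hℓ hℓM hℓS))) * X
                  + C ((ℓ : O'')))
    (ℓ : ℕ) (hℓ : ℓ.Prime) (hℓM : ¬ ℓ ∣ M) (hℓ0 : ℓ ∉ S₀) (hgood : W.IsGoodPrimeFor ℓ)
    (hℓp : ℓ ≠ p) (A : ValuationSubring (AlgebraicClosure ℚ)) (hA : A.LiesOverPrime ℓ)
    (σ : AlgebraicClosure ℚ ≃ₐ[ℚ] AlgebraicClosure ℚ) (hσ : A.IsFrobeniusAt σ ℓ) :
    LinearMap.charpoly (ρ.ρ σ) = X ^ 2 - C ((W.apOfModel ℓ : ℤ) : O'') * X + C (ℓ : O'') := by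
  rw [hρ ℓ hℓ hℓp hℓM (not_mem_excSet hℓp hℓM) A hA σ hσ]
  have h1 : (eigenChar hg.1 ((excSet M p : Finset ℕ) : Set ℕ)).rangeRestrict
      (CuspForm.heckeAlgebra.T hℓ hℓM (not_mem_excSet hℓp hℓM)) =
      (((W.apOfModel ℓ : ℤ)) : (eigenChar hg.1 ((excSet M p : Finset ℕ) : Set ℕ)).range) := by
    apply Subtype.ext
    show eigenChar hg.1 _ _ = _
    rw [eigenChar_T, hgW ℓ hℓ hℓ0 hgood]
    push_cast
    rfl
  rw [RingHom.comp_apply, h1, map_intCast, map_intCast]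

include hΔ hg hS₀ hgW in
/-- **The representation of `g` at `q ∥ M` and at good primes.** -/
theorem coeff_eq_and_bad (h35 : Stmt35) :
    (∀ ℓ : ℕ, ℓ.Prime → ¬ ℓ ∣ M → W.IsGoodPrimeFor ℓ →
      qCoeff ⇑g ℓ = ((W.apOfModel ℓ : ℤ) : ℂ)) ∧
    (∀ q : ℕ, q.Prime → q ∣ M → ¬ q ^ 2 ∣ M → ¬ W.IsGoodPrimeFor q) := by
  -- the key construction, for a prime `p` different from `q`
  have main : ∀ q : ℕ, q.Prime → ∃ p : ℕ, p.Prime ∧ p ≠ q ∧
      ∃ (O'' : Type) (_ : CommRing O'') (_ : IsDomain O'') (_ : CharZero O'') (_ : IsLocalRing O'')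
        (j : (eigenChar hg.1 ((excSet M p : Finset ℕ) : Set ℕ)).range →+* O'')
        (ρ : GaloisRepAdic O''), Function.Injective j ∧
        (∀ (ℓ : ℕ) (hℓ : ℓ.Prime) (hℓM : ¬ ℓ ∣ M)
          (hℓS : ℓ ∉ ((excSet M p : Finset ℕ) : Set ℕ)),
          ∀ A : ValuationSubring (AlgebraicClosure ℚ), A.LiesOverPrime ℓ →
            ∀ σ : AlgebraicClosure ℚ ≃ₐ[ℚ] AlgebraicClosure ℚ, A.IsFrobeniusAt σ ℓ →
              LinearMap.charpoly (ρ.ρ σ) =
                X ^ 2 - C (j ((eigenChar hg.1 ((excSet M p : Finset ℕ) : Set ℕ)).rangeRestrict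
                    (CuspForm.heckeAlgebra.T hℓ hℓM hℓS))) * X + C ((ℓ : O''))) ∧
        (∀ q : ℕ, q.Prime → q ≠ p → q ∣ M → ¬ q ^ 2 ∣ M →
          ∀ A : ValuationSubring (AlgebraicClosure ℚ), A.LiesOverPrime q →
            ∀ σ : AlgebraicClosure ℚ ≃ₐ[ℚ] AlgebraicClosure ℚ, A.IsFrobeniusAt σ q →
              LinearMap.charpoly (ρ.ρ σ) = X ^ 2 - C ((q : O'') + 1) * X + C ((q : O'')) ∨
              LinearMap.charpoly (ρ.ρ σ) = X ^ 2 + C ((q : O'') + 1) * X + C ((q : O''))) ∧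
        (∀ ℓ : ℕ, ℓ.Prime → W.IsGoodPrimeFor ℓ → ℓ ≠ p →
          ∀ A : ValuationSubring (AlgebraicClosure ℚ), A.LiesOverPrime ℓ →
            ∀ σ : AlgebraicClosure ℚ ≃ₐ[ℚ] AlgebraicClosure ℚ, A.IsFrobeniusAt σ ℓ →
              LinearMap.charpoly (ρ.ρ σ) =
                X ^ 2 - C ((W.apOfModel ℓ : ℤ) : O'') * X + C (ℓ : O'')) := by
    intro q hq
    obtain ⟨p, hpp, hpq⟩ : ∃ p : ℕ, p.Prime ∧ p ≠ q := by
      by_cases h : q = 2
      · exact ⟨3, Nat.prime_three, by rw [h]; norm_num⟩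
      · exact ⟨2, Nat.prime_two, Ne.symm h⟩
    have : Fact p.Prime := ⟨hpp⟩
    refine ⟨p, hpp, hpq, ?_⟩
    set S := excSet M p with hS
    set χ := eigenChar hg.1 ((excSet M p : Finset ℕ) : Set ℕ) with hχ
    haveI : Module.Finite ℤ (CuspForm.heckeAlgebra M 2 ((excSet M p : Finset ℕ) : Set ℕ)) :=
      Fermat.Agent.S22.result M 2 _
    obtain ⟨O', i1, i2, i3, i4, i5, i6, hpO, ⟨iota⟩⟩ := exists_coeffRing χ hpp
    obtain ⟨O'', j1, j2, j3, j4, j5, j6, j7, j8, j9, hinj, ρ, hρ, hρq⟩ :=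
      h35 hg p (excSet M p) O' hpO χ
        (fun ℓ hℓ hℓM hℓS => eigenChar_T hg.1 _ hℓ hℓM hℓS) iota (mem_excSet_self M p)
        (fun q hq hqM => mem_excSet_of_dvd M p q hq hqM)
    have hpO'' : (p : O'') ∈ maximalIdeal O'' := by
      have h := map_nonunit (algebraMap O' O'') (p : O') hpO
      rwa [map_natCast] at h
    obtain ⟨φ, hφ⟩ := exists_padicInt_hom p O'' hpO''
    have hint : Algebra.IsIntegral ℤ χ.range := by
      refine ⟨fun x => ?_⟩
      obtain ⟨y, hy⟩ := x.2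
      have h1 : IsIntegral ℤ (x : ℂ) := by
        rw [← hy]
        exact isIntegral_apply χ y
      have h2 : IsIntegral ℤ (χ.range.subtype.toIntAlgHom x) := h1
      exact (isIntegral_algHom_iff (χ.range.subtype.toIntAlgHom)
        (Subtype.coe_injective)).mp h2
    have hιinj : Function.Injective iota := by
      rw [injective_iff_map_eq_zero]
      intro x hx
      by_contra hx0
      obtain ⟨y, hy0, z, hz⟩ := (hint.isIntegral x).isAlgebraic.exists_nonzero_dvd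
        (mem_nonZeroDivisors_of_ne_zero hx0)
      have h1 := congrArg iota hz
      rw [map_mul, hx, zero_mul] at h1
      have h2 : iota (algebraMap ℤ χ.range y) = (y : O') := by simp
      rw [h2] at h1
      exact hy0 (Int.cast_eq_zero.mp h1)
    refine ⟨O'', j1, j2, j6, inferInstance, (algebraMap O' O'').comp iota, ρ,
      hinj.comp hιinj, hρ, hρq, ?_⟩
    intro ℓ hℓ hgood hℓp A hA σ hσ
    have h1 := charpoly_eq_tate hΔ p φ hφ ρ (S₀ ∪ (M.primeFactors : Set ℕ))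
      (hS₀.union (Finset.finite_toSet _))
      (fun ℓ hℓ hℓS hgood hℓp A hA σ hσ =>
        frob_eq_of_attached (W := W) hg S₀ hgW p iota ρ
          (fun ℓ hℓ _ hℓM hℓS => hρ ℓ hℓ hℓM hℓS) ℓ hℓ
          (fun h => hℓS (Or.inr (Finset.mem_coe.mpr (Nat.mem_primeFactors.mpr
            ⟨hℓ, h, NeZero.ne M⟩)))) (fun h => hℓS (Or.inl h)) hgood hℓp A hA σ hσ) σ
    have : Fact ℓ.Prime := ⟨hℓ⟩
    rw [h1, charpoly_tateRep_frobenius p (map_Δ_ne_zero hΔ) hgood (Ne.symm hℓp) hA hσ]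
    simp
  constructor
  · intro ℓ hℓ hℓM hgood
    obtain ⟨p, hpp, hpq, O'', i1, i2, i3, i4, j, ρ, hj, h1, -, h3⟩ := main ℓ hℓ
    obtain ⟨A, hA, σ, hσ⟩ := Fermat.Agent.Frob.exists_frobenius ℓ hℓ
    have h4 := h1 ℓ hℓ hℓM (not_mem_excSet (Ne.symm hpq) hℓM) A hA σ hσ
    rw [h3 ℓ hℓ hgood (Ne.symm hpq) A hA σ hσ] at h4
    have h5 := congrArg (fun P : O''[X] => P.coeff 1) h4
    simp only [coeff_one_quadratic] at h5
    have h6 : j ((W.apOfModel ℓ : ℤ) :
        (eigenChar hg.1 ((excSet M p : Finset ℕ) : Set ℕ)).range) = j _ :=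
      (map_intCast j _).trans (neg_injective h5)
    have h7 := congrArg Subtype.val (hj h6)
    have h8 : (((eigenChar hg.1 ((excSet M p : Finset ℕ) : Set ℕ)).rangeRestrict
        (CuspForm.heckeAlgebra.T hℓ hℓM (not_mem_excSet (Ne.symm hpq) hℓM)) :
        (eigenChar hg.1 ((excSet M p : Finset ℕ) : Set ℕ)).range) : ℂ) = qCoeff ⇑g ℓ :=
      eigenChar_T hg.1 _ hℓ hℓM _
    rw [← h8, ← h7]
    push_cast
    rfl
  · intro q hq hqM hq2 hgood
    obtain ⟨p, hpp, hpq, O'', i1, i2, i3, i4, j, ρ, hj, -, h2, h3⟩ := main q hq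
    obtain ⟨A, hA, σ, hσ⟩ := Fermat.Agent.Frob.exists_frobenius q hq
    have h4 := h3 q hq hgood (Ne.symm hpq) A hA σ hσ
    obtain ⟨hn1, hn2⟩ := apOfModel_ne W hq
    rcases h2 q hq (Ne.symm hpq) hqM hq2 A hA σ hσ with h5 | h5
    · rw [h4] at h5
      have h6 := congrArg (fun P : O''[X] => P.coeff 1) h5
      simp only [coeff_one_quadratic] at h6
      have h7 : ((W.apOfModel q : ℤ) : O'') = (((q : ℤ) + 1 : ℤ) : O'') := by
        rw [neg_injective h6]; push_cast; ring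
      exact hn1 (Int.cast_injective h7)
    · rw [h4] at h5
      have h6 := congrArg (fun P : O''[X] => P.coeff 1) h5
      have h8 : (X ^ 2 + C ((q : O'') + 1) * X + C (q : O'') : O''[X]) =
          X ^ 2 - C (-((q : O'') + 1)) * X + C (q : O'') := by
        rw [C_neg]; ring
      rw [h8] at h6
      simp only [coeff_one_quadratic] at h6
      have h7 : ((W.apOfModel q : ℤ) : O'') = ((-((q : ℤ) + 1) : ℤ) : O'') := by
        rw [neg_injective h6]; push_cast; ring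
      exact hn2 (Int.cast_injective h7)

end Newform

end Main

/-! ### Transfer of the residual hypotheses -/

theorem trace_of_charpoly {R S V V' : Type*} [CommRing R] [Nontrivial R] [CommRing S]
    [Nontrivial S] [AddCommGroup V] [Module R V] [Module.Free R V] [Module.Finite R V]
    [AddCommGroup V'] [Module S V'] [Module.Free S V'] [Module.Finite S V']
    (h2 : Module.finrank R V = 2) (h2' : Module.finrank S V' = 2) (j : R →+* S)
    (f : Module.End R V) (f' : Module.End S V')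
    (h : LinearMap.charpoly f' = (LinearMap.charpoly f).map j) :
    LinearMap.trace S V' f' = j (LinearMap.trace R V f) ∧
      LinearMap.det f' = j (LinearMap.det f) := by
  classical
  let b : Module.Basis (Fin 2) R V := Module.finBasisOfFinrankEq R V h2
  let b' : Module.Basis (Fin 2) S V' := Module.finBasisOfFinrankEq S V' h2'
  have e1 : LinearMap.trace R V f = -(LinearMap.charpoly f).coeff 1 := by
    rw [LinearMap.trace_eq_matrix_trace R b, Matrix.trace_eq_neg_charpoly_coeff,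
      LinearMap.charpoly_toMatrix, Fintype.card_fin]
  have e2 : LinearMap.trace S V' f' = -(LinearMap.charpoly f').coeff 1 := by
    rw [LinearMap.trace_eq_matrix_trace S b', Matrix.trace_eq_neg_charpoly_coeff,
      LinearMap.charpoly_toMatrix, Fintype.card_fin]
  refine ⟨by rw [e1, e2, h, coeff_map, map_neg], ?_⟩
  rw [LinearMap.det_eq_sign_charpoly_coeff, LinearMap.det_eq_sign_charpoly_coeff, h, h2, h2',
    coeff_map]
  simp

/-- Absolute irreducibility and oddness of the reduction only depend on characteristic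
polynomials. -/
theorem residual_of_charpoly {A B : Type} [CommRing A] [IsLocalRing A] [CommRing B]
    [IsLocalRing B] (φ : A →+* B) [IsLocalHom φ] (ρ₁ : GaloisRepAdic A) (ρ₂ : GaloisRepAdic B)
    (h : ∀ σ, LinearMap.charpoly (ρ₂.ρ σ) = (LinearMap.charpoly (ρ₁.ρ σ)).map φ)
    (hirr : ρ₁.residual.IsAbsolutelyIrreducible) (hodd : ρ₁.residual.IsOdd) :
    ρ₂.residual.IsAbsolutelyIrreducible ∧ ρ₂.residual.IsOdd := by
  have key : ∀ σ, LinearMap.charpoly (ρ₂.residual.ρ σ) =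
      (LinearMap.charpoly (ρ₁.residual.ρ σ)).map (ResidueField.map φ) := by
    intro σ
    rw [charpoly_residual, charpoly_residual, h, Polynomial.map_map, Polynomial.map_map]
    rfl
  constructor
  · exact isAbsolutelyIrreducible_of_trace (ResidueField.map φ) ρ₁.residual ρ₂.residual hirr
      fun σ => (trace_of_charpoly ρ₁.residual.finrank_eq ρ₂.residual.finrank_eq
        (ResidueField.map φ) (ρ₁.residual.ρ σ) (ρ₂.residual.ρ σ) (key σ)).1
  · intro c hc hc1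
    rw [(trace_of_charpoly ρ₁.residual.finrank_eq ρ₂.residual.finrank_eq
        (ResidueField.map φ) (ρ₁.residual.ρ c) (ρ₂.residual.ρ c) (key c)).2, hodd c hc hc1,
      map_neg, map_one]

section Square

variable {W : WeierstrassCurve ℤ} (hΔ : W.Δ ≠ 0)
  {M : ℕ} [NeZero M] {g : CuspForm (CongruenceSubgroup.Gamma0 M) 2} (hg : g.IsNewform)
  (S₀ : Set ℕ) (hS₀ : S₀.Finite)
  (hgW : ∀ ℓ : ℕ, ℓ.Prime → ℓ ∉ S₀ → W.IsGoodPrimeFor ℓ →
    qCoeff ⇑g ℓ = ((W.apOfModel ℓ : ℤ) : ℂ))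

include hΔ hg hS₀ hgW in
/-- `q² ∥ M` is impossible if the Tate module is unipotent at `q`. -/
theorem factorization_ne_two (h36 : Stmt36) (p : ℕ) [Fact p.Prime] (hp2 : p ≠ 2)
    (hirr : (tateRep _ (map_Δ_ne_zero hΔ) p).residual.IsAbsolutelyIrreducible)
    (hodd : (tateRep _ (map_Δ_ne_zero hΔ) p).residual.IsOdd)
    {q : ℕ} (hq : q.Prime) (hqp : q ≠ p)
    (hunip : (tateRep _ (map_Δ_ne_zero hΔ) p).IsUnipotentOnInertiaAt q) :
    M.factorization q ≠ 2 := by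
  intro hM2
  have hpp : p.Prime := Fact.out
  set χ := eigenChar hg.1 ((excSet M p : Finset ℕ) : Set ℕ) with hχ
  haveI : Module.Finite ℤ (CuspForm.heckeAlgebra M 2 ((excSet M p : Finset ℕ) : Set ℕ)) :=
    Fermat.Agent.S22.result M 2 _
  obtain ⟨O', i1, i2, i3, i4, i5, i6, hpO, ⟨iota⟩⟩ := exists_coeffRing χ hpp
  have hall : ∀ (O'' : Type) [CommRing O''] [IsDomain O''] [IsDiscreteValuationRing O'']
      [IsAdicComplete (IsLocalRing.maximalIdeal O'') O''] [Algebra O' O'']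
      [IsLocalHom (algebraMap O' O'')] (ρ : GaloisRepAdic O'')
      (φ : ℤ_[p] →+* O'') (_ : IsLocalHom φ),
      (∀ (ℓ : ℕ) (hℓ : ℓ.Prime) (hℓlam : ℓ ≠ p) (hℓM : ¬ ℓ ∣ M)
        (hℓS : ℓ ∉ ((excSet M p : Finset ℕ) : Set ℕ)),
        ∀ A : ValuationSubring (AlgebraicClosure ℚ), A.LiesOverPrime ℓ →
          ∀ σ : AlgebraicClosure ℚ ≃ₐ[ℚ] AlgebraicClosure ℚ, A.IsFrobeniusAt σ ℓ →
            LinearMap.charpoly (ρ.ρ σ) =
              X ^ 2 - C (algebraMap O' O'' ((iota.comp χ.rangeRestrict)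
                (CuspForm.heckeAlgebra.T hℓ hℓM hℓS))) * X + C ((ℓ : O''))) →
      ∀ σ, LinearMap.charpoly (ρ.ρ σ) =
        (LinearMap.charpoly ((tateRep _ (map_Δ_ne_zero hΔ) p).ρ σ)).map φ := by
    intro O'' j1 j2 j3 j4 j7 j9 ρ φ hφ hρ
    exact charpoly_eq_tate hΔ p φ hφ ρ (S₀ ∪ (M.primeFactors : Set ℕ))
      (hS₀.union (Finset.finite_toSet _))
      (fun ℓ hℓ hℓS hgood hℓp A hA σ hσ =>
        frob_eq_of_attached (W := W) hg S₀ hgW p iota ρ
          (fun ℓ hℓ hℓp hℓM hℓS => hρ ℓ hℓ hℓp hℓM hℓS) ℓ hℓ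
          (fun h => hℓS (Or.inr (Finset.mem_coe.mpr (Nat.mem_primeFactors.mpr
            ⟨hℓ, h, NeZero.ne M⟩)))) (fun h => hℓS (Or.inl h)) hgood hℓp A hA σ hσ)
  have hpmem : ∀ (O'' : Type) [CommRing O''] [IsLocalRing O''] [Algebra O' O'']
      [IsLocalHom (algebraMap O' O'')], (p : O'') ∈ maximalIdeal O'' := by
    intro O'' _ _ _ _
    have h := map_nonunit (algebraMap O' O'') (p : O') hpO
    rwa [map_natCast] at h
  obtain ⟨O'', j1, j2, j3, j4, j5, j6, j7, j8, j9, hinj, ρ, hρ, hρq⟩ :=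
    h36 hg p (excSet M p) O' hpO hp2 χ
      (fun ℓ hℓ hℓM hℓS => eigenChar_T hg.1 _ hℓ hℓM hℓS) iota (mem_excSet_self M p)
      (fun q hq hqM => mem_excSet_of_dvd M p q hq hqM)
      (by
        intro O'' j1 j2 j3 j4 j5 j6 j7 j8 j9 hinj ρ hρ
        obtain ⟨φ, hφ⟩ := exists_padicInt_hom p O'' (hpmem O'')
        exact residual_of_charpoly φ _ ρ (hall O'' ρ φ hφ hρ) hirr hodd)
  obtain ⟨φ, hφ⟩ := exists_padicInt_hom p O'' (hpmem O'')
  refine hρq q hq hqp hM2 ?_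
  intro A hA σ hσ
  rw [hall O'' ρ φ hφ (fun ℓ hℓ _ hℓM hℓS => hρ ℓ hℓ hℓM hℓS) σ, hunip A hA σ hσ]
  simp

end Square

/-- **S58** from S35, S36 and local facts on the Tate module of `W`. -/
theorem stmt58_of (h35 : Stmt35) (h36 : Stmt36)
    (W : WeierstrassCurve ℤ) (N : ℕ)
    (p : ℕ) [Fact p.Prime] (hp2 : p ≠ 2)
    (hirr : ∀ hΔ : W.Δ ≠ 0, (tateRep _ (map_Δ_ne_zero hΔ) p).residual.IsAbsolutelyIrreducible)
    (hodd : ∀ hΔ : W.Δ ≠ 0, (tateRep _ (map_Δ_ne_zero hΔ) p).residual.IsOdd)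
    (hunip : ∀ hΔ : W.Δ ≠ 0, ∀ q : ℕ, q.Prime → q ≠ p →
      (tateRep _ (map_Δ_ne_zero hΔ) p).IsUnipotentOnInertiaAt q)
    (hp2N : ¬ p ^ 2 ∣ N)
    (hN : W.IsModularModelOfLevel N) (hbad : ∀ ℓ : ℕ, ℓ.Prime → (ℓ : ℤ) ∣ W.Δ → ℓ ∣ N)
    (hN3 : ∀ q : ℕ, q.Prime → ¬ q ^ 3 ∣ N) :
    W.IsModularModelOfLevel W.conductorLevel := by
  have hN0 : N ≠ 0 := by
    rintro rfl
    exact hN3 2 Nat.prime_two (dvd_zero _)
  have hΔ : W.Δ ≠ 0 := by
    intro h0
    obtain ⟨ℓ, hℓN, hℓ⟩ := Nat.exists_infinite_primes (N + 1)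
    have h1 := hbad ℓ hℓ (by rw [h0]; exact dvd_zero _)
    have h2 := Nat.le_of_dvd (Nat.pos_of_ne_zero hN0) h1
    omega
  obtain ⟨f, hf, hfW⟩ := hN
  obtain ⟨M, hMN, hM0, g, hg, hgf⟩ :=
    Fermat.Agent.Oldforms.exists_newform (Nat.pos_of_ne_zero hN0) f hf
  haveI : NeZero M := ⟨hM0.ne'⟩
  have hS₀ : ((N.primeFactors : Set ℕ)).Finite := Finset.finite_toSet _
  have hgW : ∀ ℓ : ℕ, ℓ.Prime → ℓ ∉ (N.primeFactors : Set ℕ) → W.IsGoodPrimeFor ℓ →
      qCoeff ⇑g ℓ = ((W.apOfModel ℓ : ℤ) : ℂ) := by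
    intro ℓ hℓ hℓN hgood
    have h1 : ¬ ℓ ∣ N := fun h => hℓN (Finset.mem_coe.mpr (Nat.mem_primeFactors.mpr ⟨hℓ, h, hN0⟩))
    rw [hgf ℓ hℓ h1, hfW ℓ hℓ hgood h1]
  obtain ⟨hcoeff, hqbad⟩ := coeff_eq_and_bad hΔ hg _ hS₀ hgW h35
  -- the level of `g` is squarefree
  have hsq : ∀ q : ℕ, q.Prime → ¬ q ^ 2 ∣ M := by
    intro q hq hq2
    have hqp : q ≠ p := by
      rintro rfl
      exact hp2N (hq2.trans hMN)
    refine factorization_ne_two hΔ hg _ hS₀ hgW h36 p hp2 (hirr hΔ) (hodd hΔ) hq hqp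
      (hunip hΔ q hq hqp) ?_
    have h1 : 2 ≤ M.factorization q := (hq.pow_dvd_iff_le_factorization hM0.ne').mp hq2
    have h2 : ¬ 3 ≤ M.factorization q := fun h =>
      hN3 q hq (((hq.pow_dvd_iff_le_factorization hM0.ne').mpr h).trans hMN)
    omega
  have hsqf : Squarefree M := Nat.squarefree_iff_prime_squarefree.mpr fun q hq h =>
    hsq q hq (by rwa [sq])
  have hMc : M ∣ W.conductorLevel := by
    rw [← Nat.prod_primeFactors_of_squarefree hsqf]
    refine Finset.prod_primes_dvd _ (fun q hq => (Nat.prime_of_mem_primeFactors hq).prime) ?_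
    intro q hq
    have hq1 := Nat.prime_of_mem_primeFactors hq
    rw [WeierstrassCurve.prime_dvd_conductorLevel_iff W hΔ hq1]
    exact not_not.mp (hqbad q hq1 (Nat.dvd_of_mem_primeFactors hq) (hsq q hq1))
  obtain ⟨f', hf', hf'g⟩ := Fermat.Agent.Oldforms.exists_eigenform_raise hMc g hg.1
  refine ⟨f', hf', fun ℓ hℓ hgood hℓc => ?_⟩
  rw [hf'g ℓ hℓ (fun h => absurd h hℓc)]
  exact hcoeff ℓ hℓ (fun h => hℓc (h.trans hMc)) hgood

end Fermat.Agent.S58aux

end
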