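import Fermat.Agent.S58.Reduction
import Fermat.Agent.EC.ResRep

/-!
# S58 from S35 and S36 only
-/

set_option autoImplicit false

noncomputable section

open WeierstrassCurve Fermat.Agent.Tate

namespace Fermat.Agent.S58aux

/-- **S58** from S35 and S36 (all facts on the Tate module of `W` are discharged). -/
theorem stmt58_of_35_36 (h35 : Stmt35) (h36 : Stmt36)
    (W : WeierstrassCurve ℤ) (hss : W.IsSemistableModel) (N : ℕ)
    (p : ℕ) [Fact p.Prime] (hp2 : p ≠ 2) (hirr : W.ModRepIsIrreducible p)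
    (hp2N : ¬ p ^ 2 ∣ N)
    (hN : W.IsModularModelOfLevel N) (hbad : ∀ ℓ : ℕ, ℓ.Prime → (ℓ : ℤ) ∣ W.Δ → ℓ ∣ N)
    (hN3 : ∀ q : ℕ, q.Prime → ¬ q ^ 3 ∣ N) :
    W.IsModularModelOfLevel W.conductorLevel :=
  stmt58_of h35 h36 W N p hp2
    (fun hΔ => tateRep_residual_isAbsolutelyIrreducible (map_Δ_ne_zero hΔ) p hp2 hirr)
    (fun hΔ => tateRep_residual_isOdd (map_Δ_ne_zero hΔ) p hp2)
    (fun hΔ _ hq hne => tateRep_unipotent_of_semistable (map_Δ_ne_zero hΔ) p hss hp2 hq hne)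
    hp2N hN hbad hN3

end Fermat.Agent.S58aux

end
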